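import Fermat.Agent.LT.CFT.H681.DictSpec
import Fermat.Agent.LT.CFT.H701.NoOrderTwo

/-!
# Row LT, tower CFT, leaf CFT.14.2 ENTRY (helper5, registry 1071), OFF-MAIN

`entryC5 : H681.EntryC` : `TotallyComplex K → NoOrderTwo (galOf j)`, VERBATIM the leaf of the
DICT cut of helper681 (`LT/CFT/H681/DictSpec.lean`).  This is Artin--Schreier, proved by
helper701 (`LT/CFT/H701/{ArtinSchreier,NoOrderTwo}.lean`, vendored byte-identical):
`noOrderTwo_galOf701`.
-/

set_option autoImplicit false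

namespace Fermat.Agent.LT.CFT.H5

/-- **Leaf CFT.14.2 ENTRY.** -/
theorem entryC5 : H681.EntryC :=
  fun _ _ _ j hK => H701.noOrderTwo_galOf701 j hK

end Fermat.Agent.LT.CFT.H5
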